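import Fermat.Agent.RamanujanGraphs.Signing

/-!
# Two-lifts and biregular Ramanujan graphs

The spectrum of the two-lift of a signing is that of the graph together with that of the signed
adjacency matrix; iterating good signings from a complete bipartite graph gives Ramanujan graphs.
-/

set_option autoImplicit false

noncomputable section

namespace FA.RamanujanGraphs

open Finset Classical

variable {V : Type} [Fintype V]

/-- An eigenvector of the adjacency matrix. -/
def AdjEig (G : SimpleGraph V) (w : V → ℝ) (μ : ℝ) : Prop :=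
  ∀ v, ∑ u ∈ G.neighborFinset v, w u = μ * w v

/-- The Perron eigenvector of a biregular graph. -/
def perron (c e : ℕ) (b : Bool) : ℝ := if b then √(c : ℝ) else √(e : ℝ)

theorem perron_pos {c e : ℕ} (hc : 0 < c) (he : 0 < e) (b : Bool) : 0 < perron c e b := by
  cases b <;> simp [perron, hc, he]

theorem perron_edge (c e : ℕ) (b : Bool) :
    ((if b then c else e : ℕ) : ℝ) * perron c e (!b) = √((c : ℝ) * e) * perron c e b := by
  have hc : √(c : ℝ) * √(c : ℝ) = c := Real.mul_self_sqrt (Nat.cast_nonneg _)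
  have he : √(e : ℝ) * √(e : ℝ) = e := Real.mul_self_sqrt (Nat.cast_nonneg _)
  rw [Real.sqrt_mul (Nat.cast_nonneg _)]
  cases b <;>
    simp only [perron, if_true, if_false, Bool.not_true, Bool.not_false, Bool.false_eq_true]
  · linear_combination -√(c : ℝ) * he
  · linear_combination -√(e : ℝ) * hc

/-- A biregular graph with all nontrivial eigenvalues at most `B` in modulus. -/
structure BiRamanujan (G : SimpleGraph V) (col : V → Bool) (c e : ℕ) (B : ℝ) : Prop where
  proper : ∀ v w, G.Adj v w → col v ≠ col w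
  degree_eq : ∀ v, G.degree v = if col v then c else e
  spectrum : ∀ (w : V → ℝ) (μ : ℝ), w ≠ 0 → AdjEig G w μ → |μ| ≤ B ∨
    (μ = √((c : ℝ) * e) ∧ ∃ t : ℝ, ∀ v, w v = t * perron c e (col v)) ∨
    (μ = -√((c : ℝ) * e) ∧ ∃ t : ℝ, ∀ v, w v = t * (bsign ℝ (col v) * perron c e (col v)))

/-- The two-lift of a signing. -/
def twoLift (G : SimpleGraph V) (s : Sym2 V → Bool) : SimpleGraph (V × Bool) where
  Adj p q := G.Adj p.1 q.1 ∧ q.2 = (if s s(p.1, q.1) then p.2 else !p.2)
  symm := ⟨fun p q h => ⟨h.1.symm, by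
    rw [Sym2.eq_swap, h.2]
    split <;> simp⟩⟩
  loopless := ⟨fun p h => G.irrefl h.1⟩

theorem neighborFinset_twoLift (G : SimpleGraph V) (s : Sym2 V → Bool) (p : V × Bool) :
    (twoLift G s).neighborFinset p =
      (G.neighborFinset p.1).image fun u => (u, if s s(p.1, u) then p.2 else !p.2) := by
  ext q
  simp only [SimpleGraph.mem_neighborFinset, mem_image, twoLift]
  constructor
  · exact fun h => ⟨q.1, h.1, by rw [← h.2]⟩
  · rintro ⟨u, hu, rfl⟩
    exact ⟨hu, rfl⟩

theorem sum_neighbor_twoLift (G : SimpleGraph V) (s : Sym2 V → Bool) (p : V × Bool)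
    (f : V × Bool → ℝ) :
    ∑ q ∈ (twoLift G s).neighborFinset p, f q =
      ∑ u ∈ G.neighborFinset p.1, f (u, if s s(p.1, u) then p.2 else !p.2) := by
  rw [neighborFinset_twoLift, sum_image]
  intro u _ u' _ h
  exact (Prod.mk.injEq _ _ _ _ ▸ h).1

theorem degree_twoLift (G : SimpleGraph V) (s : Sym2 V → Bool) (p : V × Bool) :
    (twoLift G s).degree p = G.degree p.1 := by
  rw [← SimpleGraph.card_neighborFinset_eq_degree, neighborFinset_twoLift, card_image_of_injective,
    SimpleGraph.card_neighborFinset_eq_degree]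
  exact fun u u' h => congrArg Prod.fst h

/-- The sum and the difference over the two sheets. -/
theorem eig_twoLift {G : SimpleGraph V} {s : Sym2 V → Bool} {w : V × Bool → ℝ} {μ : ℝ}
    (h : AdjEig (twoLift G s) w μ) :
    AdjEig G (fun v => w (v, true) + w (v, false)) μ ∧
      SignEig G s (fun v => w (v, true) - w (v, false)) μ := by
  constructor <;> intro v
  · have h1 := h (v, true)
    have h2 := h (v, false)
    rw [sum_neighbor_twoLift] at h1 h2
    rw [mul_add, ← h1, ← h2, ← sum_add_distrib]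
    refine sum_congr rfl fun u _ => ?_
    dsimp only
    cases s s(v, u) <;> simp [add_comm]
  · have h1 := h (v, true)
    have h2 := h (v, false)
    rw [sum_neighbor_twoLift] at h1 h2
    rw [mul_sub, ← h1, ← h2, ← sum_sub_distrib]
    refine sum_congr rfl fun u _ => ?_
    dsimp only
    cases s s(v, u) <;> simp [bsign]

theorem bound_lt_trivial {c e : ℕ} (hc : 2 ≤ c) (he : 2 ≤ e) (h : 5 ≤ c + e) :
    √((c : ℝ) - 1) + √((e : ℝ) - 1) < √((c : ℝ) * e) := by
  have h1 : (2 : ℝ) ≤ c := by exact_mod_cast hc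
  have h2 : (2 : ℝ) ≤ e := by exact_mod_cast he
  have h3 : (5 : ℝ) ≤ (c : ℝ) + e := by exact_mod_cast h
  obtain ⟨p, hp⟩ : ∃ p : ℝ, p = √((c : ℝ) - 1) := ⟨_, rfl⟩
  obtain ⟨q, hq⟩ : ∃ q : ℝ, q = √((e : ℝ) - 1) := ⟨_, rfl⟩
  have hp0 : 0 ≤ p := hp ▸ Real.sqrt_nonneg _
  have hq0 : 0 ≤ q := hq ▸ Real.sqrt_nonneg _
  have hp2 : p * p = (c : ℝ) - 1 := hp ▸ Real.mul_self_sqrt (by linarith)
  have hq2 : q * q = (e : ℝ) - 1 := hq ▸ Real.mul_self_sqrt (by linarith)
  rw [← hp, ← hq]
  refine (Real.lt_sqrt (by linarith)).2 ?_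
  have hpq2 : (1 : ℝ) < (p * q) * (p * q) := by
    rw [show (p * q) * (p * q) = (p * p) * (q * q) by ring, hp2, hq2]
    nlinarith
  have hne : p * q - 1 ≠ 0 := fun hz => by
    rw [sub_eq_zero.1 hz] at hpq2
    norm_num at hpq2
  nlinarith [mul_self_pos.2 hne]

/-- **A good signing gives a Ramanujan lift.** -/
theorem BiRamanujan.lift {G : SimpleGraph V} {col : V → Bool} {c e : ℕ} (hc : 2 ≤ c) (he : 2 ≤ e)
    (hG : BiRamanujan G col c e (√((c : ℝ) - 1) + √((e : ℝ) - 1))) :
    ∃ s : Sym2 V → Bool, BiRamanujan (twoLift G s) (fun p => col p.1) c e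
      (√((c : ℝ) - 1) + √((e : ℝ) - 1)) := by
  obtain ⟨s, hs⟩ := exists_good_signing_abs G col hG.proper
    (B := √((c : ℝ) - 1) + √((e : ℝ) - 1)) fun x hx =>
      (weights_of_sides G hc he col hG.proper (fun v => (hG.degree_eq v).le) hx univ).ne'
  refine ⟨s, fun p q h => hG.proper _ _ h.1, fun p => by rw [degree_twoLift, hG.degree_eq],
    fun w μ hw hμ => ?_⟩
  obtain ⟨ha, hb⟩ := eig_twoLift hμ
  obtain ⟨b, hbdef⟩ : ∃ b : V → ℝ, b = fun v => w (v, true) - w (v, false) := ⟨_, rfl⟩
  rw [← hbdef] at hb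
  by_cases hb0 : b = 0
  swap
  · exact Or.inl (hs b μ hb0 hb)
  have heq : ∀ v i, w (v, i) = (w (v, true) + w (v, false)) / 2 := by
    intro v i
    have := congrFun (hbdef.symm.trans hb0) v
    simp only [Pi.zero_apply] at this
    cases i <;> linarith
  have ha0 : (fun v => w (v, true) + w (v, false)) ≠ 0 := fun h => hw (funext fun p => by
    have := congrFun h p.1
    simp only [Pi.zero_apply] at this
    rw [show p = (p.1, p.2) from rfl, heq p.1 p.2, this]
    simp)
  rcases hG.spectrum _ μ ha0 ha with h | ⟨h, t, ht⟩ | ⟨h, t, ht⟩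
  · exact Or.inl h
  · refine Or.inr (Or.inl ⟨h, t / 2, fun p => ?_⟩)
    rw [show p = (p.1, p.2) from rfl, heq p.1 p.2, ht p.1]
    ring
  · refine Or.inr (Or.inr ⟨h, t / 2, fun p => ?_⟩)
    rw [show p = (p.1, p.2) from rfl, heq p.1 p.2, ht p.1]
    ring

/-- **The complete bipartite graph.** -/
theorem biRamanujan_complete {c e : ℕ} (hc : 0 < c) (he : 0 < e) {B : ℝ} (hB : 0 ≤ B) :
    BiRamanujan (completeBipartiteGraph (Fin e) (Fin c)) Sum.isLeft c e B := by
  have hnb : ∀ v : Fin e ⊕ Fin c, (completeBipartiteGraph (Fin e) (Fin c)).neighborFinset v =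
      univ.filter fun u => u.isLeft ≠ v.isLeft := by
    intro v
    ext u
    simp only [SimpleGraph.mem_neighborFinset, completeBipartiteGraph_adj, mem_filter, mem_univ,
      true_and]
    cases u <;> cases v <;> simp
  have hl : ∀ (f : Fin e ⊕ Fin c → ℝ) (a : Fin e),
      ∑ u ∈ (completeBipartiteGraph (Fin e) (Fin c)).neighborFinset (Sum.inl a), f u =
        ∑ j, f (Sum.inr j) := fun f a => by
    rw [hnb, sum_filter, Fintype.sum_sum_type]
    simp
  have hr : ∀ (f : Fin e ⊕ Fin c → ℝ) (a : Fin c),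
      ∑ u ∈ (completeBipartiteGraph (Fin e) (Fin c)).neighborFinset (Sum.inr a), f u =
        ∑ i, f (Sum.inl i) := fun f a => by
    rw [hnb, sum_filter, Fintype.sum_sum_type]
    simp
  refine ⟨fun v w h => ?_, fun v => ?_, fun w μ hw hμ => ?_⟩
  · rw [completeBipartiteGraph_adj] at h
    cases v <;> cases w <;> simp at h ⊢
  · have h : ((completeBipartiteGraph (Fin e) (Fin c)).degree v : ℝ) =
        ((if v.isLeft then c else e : ℕ) : ℝ) := by
      rw [← SimpleGraph.card_neighborFinset_eq_degree, cast_card]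
      cases v with
      | inl a => rw [hl]; simp
      | inr a => rw [hr]; simp
    exact_mod_cast h
  rcases eq_or_ne μ 0 with rfl | hμ0
  · exact Or.inl (by simpa using hB)
  refine Or.inr ?_
  obtain ⟨L, hL⟩ : ∃ L : ℝ, L = ∑ i, w (Sum.inl i) := ⟨_, rfl⟩
  obtain ⟨R, hR⟩ : ∃ R : ℝ, R = ∑ j, w (Sum.inr j) := ⟨_, rfl⟩
  have hwl : ∀ a : Fin e, μ * w (Sum.inl a) = R := fun a => by
    rw [hR, ← hl w a, hμ (Sum.inl a)]
  have hwr : ∀ a : Fin c, μ * w (Sum.inr a) = L := fun a => by
    rw [hL, ← hr w a, hμ (Sum.inr a)]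
  have hLR : μ * L = e * R := by
    rw [hL, mul_sum, sum_congr rfl fun a _ => hwl a]
    simp
  have hRL : μ * R = c * L := by
    rw [hR, mul_sum, sum_congr rfl fun a _ => hwr a]
    simp
  have hR0 : R ≠ 0 := fun h => by
    have hL0 : L = 0 := by
      have := hLR
      rw [h, mul_zero] at this
      exact (mul_eq_zero.1 this).resolve_left hμ0
    refine hw (funext fun v => ?_)
    cases v with
    | inl a => exact (mul_eq_zero.1 (h ▸ hwl a)).resolve_left hμ0
    | inr a => exact (mul_eq_zero.1 (hL0 ▸ hwr a)).resolve_left hμ0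
  have hsq : μ * μ = (c : ℝ) * e := by
    refine mul_right_cancel₀ hR0 ?_
    linear_combination μ * hRL + (c : ℝ) * hLR
  obtain ⟨r, hrdef⟩ : ∃ r : ℝ, r = √((c : ℝ) * e) := ⟨_, rfl⟩
  have hcpos : (0 : ℝ) < √(c : ℝ) := Real.sqrt_pos.2 (Nat.cast_pos.2 hc)
  have hcc : √(c : ℝ) * √(c : ℝ) = c := Real.mul_self_sqrt (Nat.cast_nonneg _)
  have hrc : r = √(c : ℝ) * √(e : ℝ) := hrdef ▸ Real.sqrt_mul (Nat.cast_nonneg _) _
  have hwl' : ∀ a : Fin e, w (Sum.inl a) = R / μ := fun a => by
    rw [eq_div_iff hμ0, mul_comm, hwl a]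
  have hLeq : L = μ * R / c := by
    rw [hRL, mul_div_assoc, mul_comm, div_mul_cancel₀]
    exact Nat.cast_ne_zero.2 (by omega)
  have hwr' : ∀ a : Fin c, w (Sum.inr a) = R / c := fun a => by
    refine mul_left_cancel₀ hμ0 ?_
    rw [hwr a, hLeq, mul_div_assoc]
  rw [← hrdef]
  rcases mul_self_eq_mul_self_iff.1 (hsq.trans (hrdef ▸
      Real.mul_self_sqrt (mul_nonneg (Nat.cast_nonneg _) (Nat.cast_nonneg _))).symm) with h | h
  · refine Or.inl ⟨h, R / (√(c : ℝ) * μ), fun v => ?_⟩
    cases v with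
    | inl a =>
      rw [hwl', perron, Sum.isLeft_inl, if_pos rfl]
      field_simp
    | inr a =>
      rw [hwr', perron, Sum.isLeft_inr, if_neg Bool.false_ne_true, h, hrc]
      field_simp
      exact Real.sq_sqrt (Nat.cast_nonneg _)
  · refine Or.inr ⟨h, R / (√(c : ℝ) * μ), fun v => ?_⟩
    cases v with
    | inl a =>
      rw [hwl', perron, Sum.isLeft_inl, if_pos rfl, bsign]
      simp only [cond_true, one_mul]
      field_simp
    | inr a =>
      rw [hwr', perron, Sum.isLeft_inr, if_neg Bool.false_ne_true, bsign, h, hrc]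
      simp only [cond_false]
      field_simp
      exact Real.sq_sqrt (Nat.cast_nonneg _)

/-- **Biregular Ramanujan graphs of every large size.** -/
theorem exists_biRamanujan {c e : ℕ} (hc : 2 ≤ c) (he : 2 ≤ e) (k : ℕ) :
    ∃ (W : Type) (_ : Fintype W) (G : SimpleGraph W) (col : W → Bool),
      Fintype.card W = (c + e) * 2 ^ k ∧
        BiRamanujan G col c e (√((c : ℝ) - 1) + √((e : ℝ) - 1)) := by
  induction k with
  | zero =>
    refine ⟨Fin e ⊕ Fin c, inferInstance, completeBipartiteGraph (Fin e) (Fin c), Sum.isLeft,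
      by simp [add_comm], ?_⟩
    exact biRamanujan_complete (by omega) (by omega)
      (add_nonneg (Real.sqrt_nonneg _) (Real.sqrt_nonneg _))
  | succ k ih =>
    obtain ⟨W, _, G, col, hcard, hG⟩ := ih
    obtain ⟨s, hs⟩ := hG.lift hc he
    exact ⟨W × Bool, inferInstance, twoLift G s, fun p => col p.1,
      by rw [Fintype.card_prod, hcard, Fintype.card_bool, pow_succ, mul_assoc], hs⟩

/-- A Ramanujan graph in this sense is connected. -/
theorem BiRamanujan.connected [Nonempty V] {G : SimpleGraph V} {col : V → Bool} {c e : ℕ}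
    (hc : 2 ≤ c) (he : 2 ≤ e) (h5 : 5 ≤ c + e)
    (hG : BiRamanujan G col c e (√((c : ℝ) - 1) + √((e : ℝ) - 1))) : G.Connected := by
  refine ⟨fun a b => ?_⟩
  obtain ⟨w, hw⟩ : ∃ w : V → ℝ,
      w = fun v => if G.Reachable a v then perron c e (col v) else 0 := ⟨_, rfl⟩
  have hpos := perron_pos (c := c) (e := e) (by omega) (by omega)
  have hwa : w a = perron c e (col a) := by rw [hw]; simp
  have hw0 : w ≠ 0 := fun h => (hpos (col a)).ne' (hwa ▸ congrFun h a)
  have hμ : AdjEig G w √((c : ℝ) * e) := by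
    intro v
    have hnb : ∀ u ∈ G.neighborFinset v,
        w u = if G.Reachable a v then perron c e (!col v) else 0 := by
      intro u hu
      have hadj := (G.mem_neighborFinset v u).1 hu
      have hiff : G.Reachable a u ↔ G.Reachable a v :=
        ⟨fun h => h.trans hadj.symm.reachable, fun h => h.trans hadj.reachable⟩
      have hcol : col u = !col v := by
        have := hG.proper v u hadj
        cases hv : col v <;> cases hu' : col u <;> simp_all
      rw [hw]
      simp only [hiff, hcol]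
    rw [sum_congr rfl hnb, sum_const, SimpleGraph.card_neighborFinset_eq_degree, hG.degree_eq,
      nsmul_eq_mul, hw]
    dsimp only
    rcases _root_.em (G.Reachable a v) with hr | hr
    · rw [if_pos hr, if_pos hr]
      exact perron_edge c e (col v)
    · simp [hr]
  rcases hG.spectrum w _ hw0 hμ with h | ⟨-, t, ht⟩ | ⟨h, -⟩
  · exact absurd ((le_abs_self _).trans h) (not_le.2 (bound_lt_trivial hc he h5))
  · by_contra hc'
    have hb := ht b
    rw [hw] at hb
    simp only [hc', if_false] at hb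
    have ht0 : t = 0 := (mul_eq_zero.1 hb.symm).resolve_right (hpos (col b)).ne'
    exact hw0 (funext fun v => by simp [ht v, ht0])
  · exfalso
    have := Real.sqrt_pos.2 (show (0 : ℝ) < (c : ℝ) * e by positivity)
    linarith

end FA.RamanujanGraphs
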