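import Mathlib

/-!
# The matching polynomial and the theorems of Godsil–Gutman and Heilmann–Lieb

The matching polynomial of a graph as a sum over involutions supported on edges, its recursion, the
average of the characteristic polynomials over signings, and positivity above the Heilmann–Lieb
bound.
-/

set_option autoImplicit false

noncomputable section

namespace FA.RamanujanGraphs

open Finset Equiv

variable {n : Type} [Fintype n] [DecidableEq n] (G : SimpleGraph n) [DecidableRel G.Adj]
variable {R : Type} [CommRing R]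

/-- The sign of a truth value. -/
def bsign (R : Type) [CommRing R] : Bool → R := fun b => cond b 1 (-1)

theorem bsign_mul_self (b : Bool) : bsign R b * bsign R b = 1 := by
  cases b <;> simp [bsign]

theorem bsign_not (b : Bool) : bsign R (!b) = -bsign R b := by
  cases b <;> simp [bsign]

/-- The signed adjacency matrix. -/
def sgnMat (R : Type) [CommRing R] (s : Sym2 n → Bool) : Matrix n n R :=
  Matrix.of fun i j => if G.Adj i j then bsign R (s s(i, j)) else 0

/-- The involutions which move points of `S` along edges. -/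
def invSet (S : Finset n) : Finset (Perm n) :=
  univ.filter fun σ => ∀ i, σ i ≠ i → i ∈ S ∧ G.Adj i (σ i) ∧ σ (σ i) = i

theorem mem_invSet {S : Finset n} {σ : Perm n} :
    σ ∈ invSet G S ↔ ∀ i, σ i ≠ i → i ∈ S ∧ G.Adj i (σ i) ∧ σ (σ i) = i := by
  simp [invSet]

/-- The weight of an involution. -/
def invWt (S : Finset n) (x : R) (σ : Perm n) : R :=
  ((Perm.sign σ : ℤ) : R) * ∏ i ∈ S, if σ i = i then x else 1

/-- The matching polynomial of the subgraph on `S`. -/
def mu (S : Finset n) (x : R) : R := ∑ σ ∈ invSet G S, invWt S x σ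

theorem mu_empty (x : R) : mu G ∅ x = 1 := by
  have h : invSet G ∅ = {1} := by
    ext σ
    simp only [mem_invSet, mem_singleton, notMem_empty, false_and, imp_false, not_not]
    exact ⟨fun h => Equiv.ext h, fun h i => by simp [h]⟩
  simp [mu, h, invWt]

theorem map_mu {R' : Type} [CommRing R'] (φ : R →+* R') (S : Finset n) (x : R) :
    φ (mu G S x) = mu G S (φ x) := by
  simp only [mu, map_sum, invWt, map_mul, map_prod, map_intCast]
  refine sum_congr rfl fun σ _ => ?_
  congr 1
  exact prod_congr rfl fun i _ => by split <;> simp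

theorem invSet_fix {S : Finset n} {σ : Perm n} (h : σ ∈ invSet G S) {i : n} (hi : i ∉ S) :
    σ i = i := by
  by_contra hc
  exact hi ((mem_invSet G).1 h i hc).1

/-- The involutions with a given value at `v`. -/
theorem fibre_swap {S : Finset n} {v u : n} (hv : v ∉ S) (hu : u ∈ S) (hadj : G.Adj v u) (x : R) :
    ∑ σ ∈ (invSet G (insert v S)).filter (fun σ => σ v = u), invWt (insert v S) x σ =
      -mu G (S.erase u) x := by
  have hne : v ≠ u := fun e => hv (e ▸ hu)
  rw [mu, ← sum_neg_distrib]
  refine sum_bij' (fun σ _ => σ * swap v u) (fun τ _ => τ * swap v u) ?_ ?_ ?_ ?_ ?_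
  · intro σ hσ
    obtain ⟨h1, h2⟩ := mem_filter.1 hσ
    rw [mem_invSet] at h1 ⊢
    have h3 : σ u = v := by
      have := (h1 v (h2 ▸ hne.symm)).2.2
      rwa [h2] at this
    intro i hi
    have hiv : i ≠ v := fun e => hi (by simp [e, h3])
    have hiu : i ≠ u := fun e => hi (by simp [e, h2])
    have hval : (σ * swap v u) i = σ i := by simp [swap_apply_of_ne_of_ne hiv hiu]
    rw [hval] at hi ⊢
    obtain ⟨a, b, c⟩ := h1 i hi
    have hsv : σ i ≠ v := fun e => hiu (σ.injective (e.trans h3.symm))
    have hsu : σ i ≠ u := fun e => hiv (σ.injective (e.trans h2.symm))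
    refine ⟨mem_erase.2 ⟨hiu, (mem_insert.1 a).resolve_left hiv⟩, b, ?_⟩
    simp [swap_apply_of_ne_of_ne hsv hsu, c]
  · intro τ hτ
    have h2 : τ v = v := invSet_fix G hτ fun h => hv (mem_of_mem_erase h)
    have h3 : τ u = u := invSet_fix G hτ (notMem_erase u S)
    rw [mem_invSet] at hτ
    refine mem_filter.2 ⟨(mem_invSet G).2 fun i hi => ?_, by simp [h3]⟩
    rcases eq_or_ne i v with rfl | hiv
    · simp [h2, h3, hadj]
    rcases eq_or_ne i u with rfl | hiu
    · simp [h2, h3, hadj.symm, hu]
    have hval : (τ * swap v u) i = τ i := by simp [swap_apply_of_ne_of_ne hiv hiu]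
    rw [hval] at hi ⊢
    obtain ⟨a, b, c⟩ := hτ i hi
    have hsv : τ i ≠ v := fun e => hiv (τ.injective (e.trans h2.symm))
    have hsu : τ i ≠ u := fun e => hiu (τ.injective (e.trans h3.symm))
    refine ⟨mem_insert_of_mem (mem_of_mem_erase a), b, ?_⟩
    simp [swap_apply_of_ne_of_ne hsv hsu, c]
  · exact fun σ _ => by simp [mul_assoc]
  · exact fun σ _ => by simp [mul_assoc]
  · intro σ hσ
    obtain ⟨h1, h2⟩ := mem_filter.1 hσ
    have h3 : σ u = v := by
      have := ((mem_invSet G).1 h1 v (h2 ▸ hne.symm)).2.2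
      rwa [h2] at this
    have hins : insert v S = insert v (insert u (S.erase u)) := by rw [insert_erase hu]
    have hnv : v ∉ insert u (S.erase u) := by rwa [insert_erase hu]
    have hvu : σ v ≠ v := h2 ▸ hne.symm
    have huv : σ u ≠ u := h3 ▸ hne
    simp only [invWt]
    rw [hins, prod_insert hnv, prod_insert (notMem_erase u S), if_neg hvu, if_neg huv, one_mul,
      one_mul, Perm.sign_mul, Perm.sign_swap hne]
    rw [prod_congr rfl fun i hi => ?_]
    · push_cast
      ring
    have hiv : i ≠ v := fun e => hv (e ▸ mem_of_mem_erase hi)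
    have hiu : i ≠ u := ne_of_mem_erase hi
    simp [swap_apply_of_ne_of_ne hiv hiu]

/-- **The recursion of the matching polynomial.** -/
theorem mu_insert {S : Finset n} {v : n} (hv : v ∉ S) (x : R) :
    mu G (insert v S) x =
      x * mu G S x - ∑ u ∈ S.filter (G.Adj v), mu G (S.erase u) x := by
  have hmap : ∀ σ ∈ invSet G (insert v S), σ v ∈ insert v (S.filter (G.Adj v)) := by
    intro σ hσ
    rcases eq_or_ne (σ v) v with h | h
    · simp [h]
    obtain ⟨-, h2, h3⟩ := (mem_invSet G).1 hσ v h
    have h4 := ((mem_invSet G).1 hσ (σ v) (by rw [h3]; exact h.symm)).1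
    exact mem_insert_of_mem (mem_filter.2 ⟨(mem_insert.1 h4).resolve_left h, h2⟩)
  have h0 : ∑ σ ∈ (invSet G (insert v S)).filter (fun σ => σ v = v), invWt (insert v S) x σ =
      x * mu G S x := by
    rw [mu, mul_sum]
    refine sum_congr ?_ fun σ hσ => ?_
    · ext σ
      simp only [mem_filter, mem_invSet]
      refine ⟨fun h i hi => ?_, fun h => ⟨fun i hi => ?_, ?_⟩⟩
      · obtain ⟨a, b, c⟩ := h.1 i hi
        exact ⟨(mem_insert.1 a).resolve_left fun e => hi (by rw [e]; exact h.2), b, c⟩
      · obtain ⟨a, b, c⟩ := h i hi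
        exact ⟨mem_insert_of_mem a, b, c⟩
      · by_contra hc
        exact hv (h v hc).1
    · have h1 : σ v = v := invSet_fix G hσ hv
      rw [invWt, invWt, prod_insert hv, if_pos h1]
      ring
  rw [mu, ← sum_fiberwise_of_maps_to hmap, sum_insert (by simp [hv]), h0,
    sum_congr rfl fun u hu => fibre_swap G hv (mem_filter.1 hu).1 (mem_filter.1 hu).2 x]
  simp [sub_eq_add_neg]

theorem mu_neg (S : Finset n) (x : R) : mu G S (-x) = (-1) ^ S.card * mu G S x := by
  induction S using Finset.strongInduction with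
  | _ S ih =>
    rcases S.eq_empty_or_nonempty with rfl | ⟨v, hv⟩
    · simp [mu_empty]
    obtain ⟨T, hvT, rfl⟩ : ∃ T, v ∉ T ∧ S = insert v T :=
      ⟨S.erase v, notMem_erase v S, (insert_erase hv).symm⟩
    rw [mu_insert G hvT, mu_insert G hvT, ih T (ssubset_insert hvT), card_insert_of_notMem hvT,
      sum_congr rfl fun u hu => ih (T.erase u) ((erase_subset u T).trans_ssubset
        (ssubset_insert hvT))]
    rw [mul_sub, mul_sum]
    congr 1
    · ring
    refine sum_congr rfl fun u hu => ?_
    have : T.card = (T.erase u).card + 1 := (card_erase_add_one (mem_filter.1 hu).1).symm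
    rw [this, pow_succ, pow_succ]
    ring

/-! ### Godsil–Gutman -/

/-- **Godsil–Gutman.** -/
theorem sum_det_sgnMat (x : R) :
    ∑ s : Sym2 n → Bool, (x • (1 : Matrix n n R) - sgnMat G R s).det =
      (Fintype.card (Sym2 n → Bool) : R) * mu G univ x := by
  simp only [Matrix.det_apply']
  rw [sum_comm, mu, mul_sum,
    ← sum_subset (subset_univ (invSet G univ)) fun σ _ hσ => ?_]
  · refine sum_congr rfl fun σ hσ => ?_
    rw [mem_invSet] at hσ
    rw [← nsmul_eq_mul, ← card_univ, ← sum_const]
    refine sum_congr rfl fun s _ => ?_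
    rw [invWt]
    congr 1
    obtain ⟨F, hF⟩ : ∃ F : n → R, F = fun i => if σ i = i then x else 1 := ⟨_, rfl⟩
    obtain ⟨H, hH⟩ : ∃ H : n → R,
        H = fun i => if σ i = i then 1 else -bsign R (s s(σ i, i)) := ⟨_, rfl⟩
    have e : ∀ i, (x • (1 : Matrix n n R) - sgnMat G R s) (σ i) i = F i * H i := by
      intro i
      rw [hF, hH]
      rcases eq_or_ne (σ i) i with h | h
      · simp [h, sgnMat]
      · simp [h, sgnMat, (hσ i h).2.1.symm]
    rw [prod_congr rfl fun i _ => e i, prod_mul_distrib, hF]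
    convert mul_one _
    rw [hH]
    refine prod_involution (fun i _ => σ i) (fun i _ => ?_) (fun i _ hi => ?_)
      (fun i _ => mem_univ _) fun i _ => ?_
    · rcases eq_or_ne (σ i) i with h | h
      · simp [h]
      · have h3 := (hσ i h).2.2
        simp [h, h.symm, h3, Sym2.eq_swap (a := i), bsign_mul_self]
    · intro h
      simp [h] at hi
    · rcases eq_or_ne (σ i) i with h | h
      · simp [h]
      · exact (hσ i h).2.2
  rw [mem_invSet] at hσ
  push Not at hσ
  obtain ⟨i, hi, h⟩ := hσ
  rcases em (G.Adj i (σ i)) with hadj | hadj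
  swap
  · refine sum_eq_zero fun s _ => ?_
    rw [prod_eq_zero (mem_univ i) (by simp [hi, sgnMat, mt SimpleGraph.Adj.symm hadj]), mul_zero]
  have hcyc := h (mem_univ i) hadj
  obtain ⟨e, he⟩ : ∃ e : Sym2 n, e = s(σ i, i) := ⟨_, rfl⟩
  refine sum_involution (fun s _ => Function.update s e (!s e)) (fun s _ => ?_) (fun s _ _ => ?_)
    (fun s _ => mem_univ _) fun s _ => by simp
  · obtain ⟨s', hs'⟩ : ∃ s', s' = Function.update s e (!s e) := ⟨_, rfl⟩
    rw [← hs', ← mul_add]
    convert mul_zero _
    rw [← mul_prod_erase univ _ (mem_univ i), ← mul_prod_erase univ _ (mem_univ i)]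
    have hrest : ∀ j ∈ univ.erase i, (x • (1 : Matrix n n R) - sgnMat G R s') (σ j) j =
        (x • (1 : Matrix n n R) - sgnMat G R s) (σ j) j := by
      intro j hj
      have hji := ne_of_mem_erase hj
      rcases eq_or_ne (σ j) j with hj' | hj'
      · simp [hj', sgnMat]
      have hne : s(σ j, j) ≠ e := by
        rw [he, Ne, Sym2.eq_iff]
        rintro (⟨-, h2⟩ | ⟨h1, h2⟩)
        · exact hji h2
        · exact hcyc (h2 ▸ h1)
      simp [sgnMat, hs', Function.update_of_ne hne]
    rw [prod_congr rfl hrest, ← add_mul]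
    have : (x • (1 : Matrix n n R) - sgnMat G R s') (σ i) i =
        -((x • (1 : Matrix n n R) - sgnMat G R s) (σ i) i) := by
      simp [sgnMat, hadj.symm, hi, hs', ← he, bsign_not]
    rw [this, add_neg_cancel, zero_mul]
  · intro heq
    have := congrFun heq e
    simp at this

/-! ### The bound of Heilmann and Lieb -/

theorem mu_pos_and_ratio {x : ℝ} {a : n → ℝ} (ha : ∀ v, 0 < a v)
    (h1 : ∀ v w, G.Adj v w → a v + ∑ u ∈ (G.neighborFinset v).erase w, (a u)⁻¹ ≤ x)
    (h2 : ∀ v, ∑ u ∈ G.neighborFinset v, (a u)⁻¹ < x) (S : Finset n) :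
    0 < mu G S x ∧
      ∀ v ∈ S, ∀ w, w ∉ S → G.Adj v w → a v * mu G (S.erase v) x ≤ mu G S x := by
  induction S using Finset.strongInduction with
  | _ S ih =>
    have key : ∀ v ∈ S, 0 < mu G (S.erase v) x ∧
        (x - ∑ u ∈ (S.erase v).filter (G.Adj v), (a u)⁻¹) * mu G (S.erase v) x ≤ mu G S x := by
      intro v hv
      obtain ⟨hpos, hrat⟩ := ih _ (erase_ssubset hv)
      refine ⟨hpos, ?_⟩
      conv_rhs => rw [← insert_erase hv]
      rw [mu_insert G (notMem_erase v S), sub_mul, sum_mul]
      refine sub_le_sub_left (sum_le_sum fun u hu => ?_) _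
      obtain ⟨hu1, hu2⟩ := mem_filter.1 hu
      have := hrat u hu1 v (notMem_erase v S) hu2.symm
      rw [inv_mul_eq_div, le_div_iff₀ (ha u), mul_comm]
      exact this
    refine ⟨?_, fun v hv w hw hadj => ?_⟩
    · rcases S.eq_empty_or_nonempty with rfl | ⟨v, hv⟩
      · simp [mu_empty]
      obtain ⟨hpos, hle⟩ := key v hv
      refine lt_of_lt_of_le (mul_pos ?_ hpos) hle
      refine sub_pos.2 (lt_of_le_of_lt ?_ (h2 v))
      exact sum_le_sum_of_subset_of_nonneg (fun u hu => (G.mem_neighborFinset v u).2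
        (mem_filter.1 hu).2) fun u _ _ => (inv_pos.2 (ha u)).le
    · obtain ⟨hpos, hle⟩ := key v hv
      refine le_trans (mul_le_mul_of_nonneg_right ?_ hpos.le) hle
      have := h1 v w hadj
      have h3 : ∑ u ∈ (S.erase v).filter (G.Adj v), (a u)⁻¹ ≤
          ∑ u ∈ (G.neighborFinset v).erase w, (a u)⁻¹ :=
        sum_le_sum_of_subset_of_nonneg (fun u hu => mem_erase.2
          ⟨fun e => hw (e ▸ mem_of_mem_erase (mem_filter.1 hu).1),
            (G.mem_neighborFinset v u).2 (mem_filter.1 hu).2⟩) fun u _ _ => (inv_pos.2 (ha u)).le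
      linarith

/-- The weights `√(D - 1)`. -/
theorem weights_of_degree_le {D : ℕ} (hD : 2 ≤ D) (hdeg : ∀ v, G.degree v ≤ D) {x : ℝ}
    (hx : 2 * √((D : ℝ) - 1) < x) (S : Finset n) : 0 < mu G S x := by
  have h1 : (2 : ℝ) ≤ D := by exact_mod_cast hD
  obtain ⟨r, hr⟩ : ∃ r : ℝ, r = √((D : ℝ) - 1) := ⟨_, rfl⟩
  have hr1 : 1 ≤ r := hr ▸ Real.one_le_sqrt.2 (by linarith)
  have hr2 : r * r = (D : ℝ) - 1 := hr ▸ Real.mul_self_sqrt (by linarith)
  refine (mu_pos_and_ratio G (a := fun _ => r) (fun _ => by linarith) (fun v w hadj => ?_)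
    (fun v => ?_) S).1
  · have hc : (((G.neighborFinset v).erase w).card : ℝ) ≤ r * r := by
      have h' := card_erase_add_one ((G.mem_neighborFinset v w).2 hadj)
      rw [SimpleGraph.card_neighborFinset_eq_degree] at h'
      have h'' : ((((G.neighborFinset v).erase w).card + 1 : ℕ) : ℝ) ≤ D := by
        exact_mod_cast h'.trans_le (hdeg v)
      push_cast at h''
      linarith
    rw [sum_const, nsmul_eq_mul, ← div_eq_mul_inv]
    have : (((G.neighborFinset v).erase w).card : ℝ) / r ≤ r :=
      (div_le_iff₀ (by linarith)).2 hc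
    linarith
  · rw [sum_const, nsmul_eq_mul, ← div_eq_mul_inv, SimpleGraph.card_neighborFinset_eq_degree,
      div_lt_iff₀ (by linarith)]
    have h3 : (G.degree v : ℝ) ≤ D := by exact_mod_cast hdeg v
    nlinarith

/-- The weights of a bipartite graph. -/
theorem weights_of_sides {c e : ℕ} (hc : 2 ≤ c) (he : 2 ≤ e) (col : n → Bool)
    (hcol : ∀ v w, G.Adj v w → col v ≠ col w)
    (hdeg : ∀ v, G.degree v ≤ if col v then c else e) {x : ℝ}
    (hx : √((c : ℝ) - 1) + √((e : ℝ) - 1) < x) (S : Finset n) : 0 < mu G S x := by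
  have h1 : (2 : ℝ) ≤ c := by exact_mod_cast hc
  have h2 : (2 : ℝ) ≤ e := by exact_mod_cast he
  obtain ⟨p, hp⟩ : ∃ p : ℝ, p = √((c : ℝ) - 1) := ⟨_, rfl⟩
  obtain ⟨q, hq⟩ : ∃ q : ℝ, q = √((e : ℝ) - 1) := ⟨_, rfl⟩
  have hp1 : 1 ≤ p := hp ▸ Real.one_le_sqrt.2 (by linarith)
  have hq1 : 1 ≤ q := hq ▸ Real.one_le_sqrt.2 (by linarith)
  have hp2 : p * p = (c : ℝ) - 1 := hp ▸ Real.mul_self_sqrt (by linarith)
  have hq2 : q * q = (e : ℝ) - 1 := hq ▸ Real.mul_self_sqrt (by linarith)
  rw [← hp, ← hq] at hx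
  refine (mu_pos_and_ratio G (a := fun v => if col v then q else p)
    (fun v => by split <;> linarith) (fun v w hadj => ?_) (fun v => ?_) S).1
  all_goals
    have hd : (G.degree v : ℝ) ≤ if col v then (c : ℝ) else e := by
      have := hdeg v
      cases hv : col v <;> simp_all
    have hnb : ∀ u ∈ G.neighborFinset v, (if col u then q else p)⁻¹ =
        (if col v then p else q)⁻¹ := by
      intro u hu
      have := hcol v u ((G.mem_neighborFinset v u).1 hu)
      cases hv : col v <;> cases hw : col u <;> simp_all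
  · rw [sum_congr rfl fun u hu => hnb u (mem_of_mem_erase hu), sum_const, nsmul_eq_mul]
    have h' := card_erase_add_one ((G.mem_neighborFinset v w).2 hadj)
    rw [SimpleGraph.card_neighborFinset_eq_degree] at h'
    have h'' : (((G.neighborFinset v).erase w).card : ℝ) + 1 = G.degree v := by
      exact_mod_cast h'
    cases hv : col v <;> simp only [hv, if_true, if_false, Bool.false_eq_true] at hd ⊢
    · have : (((G.neighborFinset v).erase w).card : ℝ) * q⁻¹ ≤ q := by
        rw [← div_eq_mul_inv, div_le_iff₀ (by linarith)]; linarith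
      linarith
    · have : (((G.neighborFinset v).erase w).card : ℝ) * p⁻¹ ≤ p := by
        rw [← div_eq_mul_inv, div_le_iff₀ (by linarith)]; linarith
      linarith
  · rw [sum_congr rfl hnb, sum_const, nsmul_eq_mul, SimpleGraph.card_neighborFinset_eq_degree,
      ← div_eq_mul_inv]
    cases hv : col v <;> simp only [hv, if_true, if_false, Bool.false_eq_true] at hd ⊢
    · rw [div_lt_iff₀ (by linarith)]
      nlinarith
    · rw [div_lt_iff₀ (by linarith)]
      nlinarith

/-! ### Matchings as sets of edges -/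

open Classical in
/-- The matchings inside `S`. -/
def matchingsOn (S : Finset n) : Finset (Finset (Sym2 n)) :=
  G.edgeFinset.powerset.filter fun M =>
    (∀ e ∈ M, ∀ i, i ∈ e → i ∈ S) ∧ ∀ e ∈ M, ∀ f ∈ M, ∀ i, i ∈ e → i ∈ f → e = f

theorem mem_matchingsOn {S : Finset n} {M : Finset (Sym2 n)} :
    M ∈ matchingsOn G S ↔ M ⊆ G.edgeFinset ∧ (∀ e ∈ M, ∀ i, i ∈ e → i ∈ S) ∧
      ∀ e ∈ M, ∀ f ∈ M, ∀ i, i ∈ e → i ∈ f → e = f := by
  simp [matchingsOn]

theorem two_mul_card_le {S : Finset n} {M : Finset (Sym2 n)} (hM : M ∈ matchingsOn G S) :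
    2 * M.card ≤ S.card := by
  obtain ⟨h1, h2, h3⟩ := (mem_matchingsOn G).1 hM
  have hsub : M.biUnion (fun e => e.toFinset) ⊆ S := fun i hi => by
    obtain ⟨e, he, hie⟩ := mem_biUnion.1 hi
    exact h2 e he i (Sym2.mem_toFinset.1 hie)
  refine le_trans ?_ (card_le_card hsub)
  rw [card_biUnion fun e he f hf hne => disjoint_left.2 fun i hi hi' =>
    hne (h3 e he f hf i (Sym2.mem_toFinset.1 hi) (Sym2.mem_toFinset.1 hi')),
    sum_congr rfl fun e he => Sym2.card_toFinset_of_not_isDiag e
      (G.not_isDiag_of_mem_edgeSet (SimpleGraph.mem_edgeFinset.1 (h1 he))),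
    sum_const, smul_eq_mul, mul_comm]

/-- The matchings which cover `v` by the edge to `u`. -/
theorem matchings_cover {S : Finset n} {v u : n} (hv : v ∉ S) (hu : u ∈ S) (hadj : G.Adj v u)
    (x : R) :
    ∑ M ∈ (matchingsOn G (insert v S)).filter (fun M => s(v, u) ∈ M),
        (-1 : R) ^ M.card * x ^ ((insert v S).card - 2 * M.card) =
      -∑ M ∈ matchingsOn G (S.erase u),
          (-1 : R) ^ M.card * x ^ ((S.erase u).card - 2 * M.card) := by
  have hnot : ∀ M ∈ matchingsOn G (S.erase u), s(v, u) ∉ M := fun M hM h =>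
    notMem_erase u S (((mem_matchingsOn G).1 hM).2.1 _ h u (Sym2.mem_mk_right v u))
  rw [← sum_neg_distrib]
  refine sum_bij' (fun M _ => M.erase s(v, u)) (fun M _ => insert s(v, u) M) ?_ ?_ ?_ ?_ ?_
  · intro M hM
    obtain ⟨h0, he⟩ := mem_filter.1 hM
    obtain ⟨h1, h2, h3⟩ := (mem_matchingsOn G).1 h0
    refine (mem_matchingsOn G).2 ⟨(erase_subset _ M).trans h1, fun f hf i hi => ?_,
      fun f hf g hg => h3 f (mem_of_mem_erase hf) g (mem_of_mem_erase hg)⟩
    obtain ⟨hne, hf'⟩ := mem_erase.1 hf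
    refine mem_erase.2 ⟨fun e => hne (h3 f hf' _ he i hi (by simp [e])), ?_⟩
    exact (mem_insert.1 (h2 f hf' i hi)).resolve_left
      fun e => hne (h3 f hf' _ he i hi (by simp [e]))
  · intro M hM
    obtain ⟨h1, h2, h3⟩ := (mem_matchingsOn G).1 hM
    have key : ∀ f ∈ M, ∀ i, i ∈ f → i ∈ s(v, u) → False := fun f hf i hi hi' => by
      have := h2 f hf i hi
      rcases Sym2.mem_iff.1 hi' with rfl | rfl
      · exact hv (mem_of_mem_erase this)
      · exact notMem_erase _ S this
    refine mem_filter.2 ⟨(mem_matchingsOn G).2 ⟨insert_subset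
      (SimpleGraph.mem_edgeFinset.2 hadj) h1, fun f hf i hi => ?_, fun f hf g hg i hi hi' => ?_⟩,
      mem_insert_self _ _⟩
    · rcases mem_insert.1 hf with rfl | hf
      · rcases Sym2.mem_iff.1 hi with rfl | rfl <;> simp [hu]
      · exact mem_insert_of_mem (mem_of_mem_erase (h2 f hf i hi))
    · rcases mem_insert.1 hf with rfl | hf <;> rcases mem_insert.1 hg with rfl | hg
      · rfl
      · exact (key g hg i hi' hi).elim
      · exact (key f hf i hi hi').elim
      · exact h3 f hf g hg i hi hi'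
  · exact fun M hM => insert_erase (mem_filter.1 hM).2
  · exact fun M hM => erase_insert (hnot M hM)
  · intro M hM
    have he := (mem_filter.1 hM).2
    have hc := card_erase_add_one he
    have hc' := card_erase_add_one hu
    rw [card_insert_of_notMem hv, ← hc, ← hc', pow_succ]
    rw [show (S.erase u).card + 1 + 1 - 2 * ((M.erase s(v, u)).card + 1) =
      (S.erase u).card - 2 * (M.erase s(v, u)).card by omega]
    ring

/-- The sum over matchings is the matching polynomial. -/
theorem sum_matchingsOn (S : Finset n) (x : R) :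
    ∑ M ∈ matchingsOn G S, (-1 : R) ^ M.card * x ^ (S.card - 2 * M.card) = mu G S x := by
  induction S using Finset.strongInduction with
  | _ S ih =>
    rcases S.eq_empty_or_nonempty with rfl | ⟨v, hv⟩
    · have : matchingsOn G ∅ = {∅} := by
        ext M
        simp only [mem_matchingsOn, mem_singleton, notMem_empty]
        refine ⟨fun h => eq_empty_of_forall_notMem fun e he => ?_, fun h => by simp [h]⟩
        induction e using Sym2.ind with
        | _ a b => exact h.2.1 _ he a (Sym2.mem_mk_left a b)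
      simp [this, mu_empty]
    obtain ⟨T, hvT, rfl⟩ : ∃ T, v ∉ T ∧ S = insert v T :=
      ⟨S.erase v, notMem_erase v S, (insert_erase hv).symm⟩
    rw [mu_insert G hvT, ← ih T (ssubset_insert hvT),
      sum_congr rfl fun u hu => (ih (T.erase u) ((erase_subset u T).trans_ssubset
        (ssubset_insert hvT))).symm]
    rw [← sum_filter_add_sum_filter_not (matchingsOn G (insert v T)) (fun M => ∀ e ∈ M, v ∉ e)]
    rw [sub_eq_add_neg, mul_sum, ← sum_neg_distrib]
    congr 1
    · refine sum_congr ?_ fun M hM => ?_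
      · ext M
        simp only [mem_filter, mem_matchingsOn]
        refine ⟨fun ⟨⟨h1, h2, h3⟩, h4⟩ => ⟨h1, fun e he i hi => ?_, h3⟩,
          fun ⟨h1, h2, h3⟩ => ⟨⟨h1, fun e he i hi => mem_insert_of_mem (h2 e he i hi), h3⟩,
            fun e he hve => hvT (h2 e he v hve)⟩⟩
        exact (mem_insert.1 (h2 e he i hi)).resolve_left fun h => h4 e he (h ▸ hi)
      · have := two_mul_card_le G hM
        rw [card_insert_of_notMem hvT, show T.card + 1 - 2 * M.card =
          (T.card - 2 * M.card) + 1 by omega, pow_succ]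
        ring
    · rw [sum_congr rfl fun u hu =>
        (matchings_cover G hvT (mem_filter.1 hu).1 (mem_filter.1 hu).2 x).symm]
      rw [← sum_biUnion]
      · refine sum_congr ?_ fun M _ => rfl
        ext M
        simp only [mem_filter, mem_biUnion, mem_matchingsOn]
        constructor
        · rintro ⟨⟨h1, h2, h3⟩, h4⟩
          push Not at h4
          obtain ⟨e, he, hve⟩ := h4
          obtain ⟨u, rfl⟩ := Sym2.mem_iff_exists.1 hve
          have hadj : G.Adj v u := SimpleGraph.mem_edgeFinset.1 (h1 he)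
          exact ⟨u, ⟨(mem_insert.1 (h2 _ he u (Sym2.mem_mk_right v u))).resolve_left hadj.ne',
            hadj⟩, ⟨h1, h2, h3⟩, he⟩
        · rintro ⟨u, -, h, he⟩
          exact ⟨h, fun h4 => h4 _ he (Sym2.mem_mk_left v u)⟩
      · intro u hu u' hu' hne
        refine disjoint_left.2 fun M h h' => hne ?_
        obtain ⟨h0, he⟩ := mem_filter.1 h
        obtain ⟨-, he'⟩ := mem_filter.1 h'
        have := ((mem_matchingsOn G).1 h0).2.2 _ he _ he' v (Sym2.mem_mk_left v u)
          (Sym2.mem_mk_left v u')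
        exact Sym2.congr_right.1 this

end FA.RamanujanGraphs
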