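import Fermat.Agent.RamanujanGraphs.Matching
import Fermat.Agent.KadisonSinger.Select

/-!
# Signings with small spectral radius

The matching polynomial is a mixed characteristic polynomial, so the interlacing families of
Marcus, Spielman and Srivastava give a signing whose eigenvalues do not exceed its largest root.
-/

set_option autoImplicit false

noncomputable section

namespace FA.RamanujanGraphs

open Finset Matrix Polynomial KadisonSinger
open scoped ComplexOrder

variable {n : Type} [Fintype n] [DecidableEq n] (G : SimpleGraph n) [DecidableRel G.Adj]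

/-- The vector of an edge with a sign. -/
def edgeVec (e : Sym2 n) (k : Bool) : n → ℂ :=
  Pi.single e.out.1 1 + bsign ℂ k • Pi.single e.out.2 1

/-- The deterministic vector of a vertex. -/
def padVec (K : ℕ) (v : n) : n → ℂ := Pi.single v (√((K : ℝ) - G.degree v) : ℂ)

/-- The padding matrices. -/
def padList (K : ℕ) : List (Matrix n n ℂ) :=
  (univ : Finset n).toList.map fun v => rankOne (padVec G K v)

/-- The signed matrices. -/
def signList (s : Sym2 n → Bool) : List (Matrix n n ℂ) :=
  G.edgeFinset.toList.map fun e => rankOne (edgeVec e (s e))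

/-- The mean matrices. -/
def meanList : List (Matrix n n ℂ) :=
  G.edgeFinset.toList.map fun e => meanMat (fun _ : Bool => (1 / 2 : ℝ)) (edgeVec e)

theorem padList_posSemidef (K : ℕ) : ∀ A ∈ padList G K, A.PosSemidef := fun A hA => by
  obtain ⟨v, -, rfl⟩ := List.mem_map.1 hA
  exact posSemidef_rankOne _

theorem meanList_posSemidef : ∀ A ∈ meanList G, A.PosSemidef := fun A hA => by
  obtain ⟨e, -, rfl⟩ := List.mem_map.1 hA
  exact posSemidef_meanMat (fun _ => by norm_num) _

theorem rankOne_edgeVec {a b : n} (k : Bool) (i j : n) (hab : a ≠ b) :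
    rankOne (Pi.single a 1 + bsign ℂ k • Pi.single b 1) i j =
      if i = j then (if i ∈ s(a, b) then 1 else 0)
      else if s(i, j) = s(a, b) then bsign ℂ k else 0 := by
  simp only [rankOne, vecMulVec_apply, Pi.star_apply, Pi.add_apply, Pi.smul_apply, smul_eq_mul,
    Pi.single_apply, Sym2.mem_iff, Sym2.eq_iff]
  by_cases hia : i = a <;> by_cases hja : j = a <;> by_cases hib : i = b <;>
    by_cases hjb : j = b <;> cases k <;> simp_all [bsign, eq_comm]

theorem padList_add_signList (K : ℕ) (hK : ∀ v, G.degree v ≤ K) (s : Sym2 n → Bool) :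
    (padList G K).sum + (signList G s).sum = (K : ℂ) • (1 : Matrix n n ℂ) + sgnMat G ℂ s := by
  rw [padList, signList, sum_map_toList, sum_map_toList]
  refine Matrix.ext fun i j => ?_
  rw [Matrix.add_apply, Matrix.sum_apply, Matrix.sum_apply]
  have h1 : ∀ e ∈ G.edgeFinset, rankOne (edgeVec e (s e)) i j =
      if i = j then (if i ∈ e then 1 else 0) else if s(i, j) = e then bsign ℂ (s e) else 0 := by
    intro e he
    have hout : s(e.out.1, e.out.2) = e := Quot.out_eq e
    have hne : e.out.1 ≠ e.out.2 := by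
      refine SimpleGraph.Adj.ne (G := G) ?_
      rw [← SimpleGraph.mem_edgeSet, hout]
      exact SimpleGraph.mem_edgeFinset.1 he
    rw [edgeVec, rankOne_edgeVec _ i j hne, hout]
  have h2 : ∀ v : n, rankOne (padVec G K v) i j =
      if v = i then (if i = j then ((K : ℂ) - G.degree i) else 0) else 0 := by
    intro v
    simp only [rankOne, padVec, vecMulVec_apply, Pi.star_apply, Pi.single_apply]
    rcases eq_or_ne i v with rfl | hi
    · rcases eq_or_ne i j with rfl | hj
      · have : (0 : ℝ) ≤ (K : ℝ) - G.degree i := by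
          rw [sub_nonneg]; exact_mod_cast hK i
        simp [← Complex.ofReal_mul, Real.mul_self_sqrt this]
      · simp [hj, Ne.symm hj]
    · simp [hi, hi.symm]
  rw [sum_congr rfl h1, sum_congr rfl fun v _ => h2 v, sum_ite_eq' univ i, if_pos (mem_univ i)]
  rcases eq_or_ne i j with rfl | hij
  · simp only [if_true]
    rw [sum_boole, ← G.incidenceFinset_eq_filter i, G.card_incidenceFinset_eq_degree]
    simp [sgnMat]
  · simp only [if_neg hij]
    rw [sum_ite_eq G.edgeFinset s(i, j)]
    simp [sgnMat, hij]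

theorem mixedDet_signList (K : ℕ) (hK : ∀ v, G.degree v ≤ K) (s : Sym2 n → Bool) {R : Type}
    [CommRing R] [Algebra ℂ R] (x : R) :
    mixedDet (padList G K ++ signList G s) R (x • 1) =
      ((x - (K : R)) • (1 : Matrix n n R) - sgnMat G R s).det := by
  have e : padList G K ++ signList G s = ((univ : Finset n).toList.map (padVec G K) ++
      G.edgeFinset.toList.map fun e => edgeVec e (s e)).map fun v => vecMulVec v (star v) := by
    simp [padList, signList, List.map_map, Function.comp_def]
  rw [e, mixedDet_rankOne, ← e, List.sum_append, padList_add_signList G K hK s]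
  congr 1
  refine Matrix.ext fun i j => ?_
  rcases eq_or_ne i j with rfl | h
  · simp [cst, sgnMat]
  · simp only [cst, sgnMat, bsign, Matrix.sub_apply, Matrix.smul_apply, Matrix.map_apply,
      Matrix.add_apply, Matrix.one_apply_ne h, Matrix.of_apply, smul_zero, zero_add, zero_sub]
    by_cases ha : G.Adj i j
    · cases s s(i, j) <;> simp [ha]
    · simp [ha]

/-- Expansion of the mixed determinant of the mean matrices. -/
theorem mixedDet_mean_expand {ι : Type} [Fintype ι] [DecidableEq ι] (v : ι → Bool → n → ℂ)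
    {R : Type} [CommRing R] [Algebra ℂ R] (M : Matrix n n R) :
    ∀ js : List ι, js.Nodup → ∀ pre : List (Matrix n n ℂ),
      (Fintype.card (ι → Bool) : R) *
          mixedDet (pre ++ js.map fun e => meanMat (fun _ : Bool => (1 / 2 : ℝ)) (v e)) R M =
        ∑ s : ι → Bool, mixedDet (pre ++ js.map fun e => rankOne (v e (s e))) R M
  | [], _, pre => by simp [sum_const, nsmul_eq_mul]
  | j :: js, hjs, pre => by
    obtain ⟨hj, hjs'⟩ := List.nodup_cons.1 hjs
    obtain ⟨H, hH⟩ : ∃ H : Bool → (ι → Bool) → R, H = fun k s =>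
        mixedDet ((pre ++ [rankOne (v j k)]) ++ js.map fun e => rankOne (v e (s e))) R M := ⟨_, rfl⟩
    have hrhs : ∀ s : ι → Bool, mixedDet (pre ++ (j :: js).map fun e => rankOne (v e (s e))) R M =
        H (s j) s := by
      intro s
      simp [hH]
    have hflip : ∑ s : ι → Bool, H (s j) s = ∑ s : ι → Bool, H (!(s j)) s := by
      refine Fintype.sum_bijective (fun s : ι → Bool => Function.update s j (!(s j))) ?_ _ _
        fun s => ?_
      · exact Function.Involutive.bijective fun s => by simp
      · rw [hH]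
        simp only [Function.update_self, Bool.not_not]
        refine congrArg (fun l => mixedDet (_ ++ l) R M) (List.map_congr_left fun e he => ?_)
        rw [Function.update_of_ne (fun h : e = j => hj (h ▸ he))]
    have htwo : 2 * ∑ s : ι → Bool, H (s j) s = ∑ k : Bool, ∑ s : ι → Bool, H k s := by
      rw [two_mul]
      nth_rw 2 [hflip]
      rw [← sum_add_distrib, Fintype.sum_bool, ← sum_add_distrib]
      refine sum_congr rfl fun s _ => ?_
      cases s j <;> simp [add_comm]
    rw [sum_congr rfl fun s _ => hrhs s, List.map_cons, meanMat,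
      mixedDet_affine univ (fun _ : Bool => (((1 / 2 : ℝ)) : ℂ)) (by simp) _ pre _ M, mul_sum]
    have hk : ∀ k : Bool, (Fintype.card (ι → Bool) : R) * ((((1 / 2 : ℝ)) : ℂ) •
        mixedDet (pre ++ rankOne (v j k) :: js.map fun e =>
          meanMat (fun _ : Bool => (1 / 2 : ℝ)) (v e)) R M) =
        (((1 / 2 : ℝ)) : ℂ) • ∑ s : ι → Bool, H k s := by
      intro k
      rw [mul_smul_comm, List.append_cons, mixedDet_mean_expand v M js hjs', hH]
    rw [sum_congr rfl fun k _ => hk k, ← smul_sum, ← htwo, Algebra.smul_def, ← mul_assoc,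
      ← map_ofNat (algebraMap ℂ R), ← map_mul]
    simp

/-- **The matching polynomial is a mixed characteristic polynomial.** -/
theorem mixedDet_meanList (K : ℕ) (hK : ∀ v, G.degree v ≤ K) {R : Type} [CommRing R]
    [Algebra ℂ R] (x : R) :
    mixedDet (padList G K ++ meanList G) R (x • 1) = mu G univ (x - (K : R)) := by
  have h := mixedDet_mean_expand edgeVec (x • (1 : Matrix n n R)) G.edgeFinset.toList
    (nodup_toList _) (padList G K)
  have h2 : ∀ s : Sym2 n → Bool, mixedDet (padList G K ++
      G.edgeFinset.toList.map fun e => rankOne (edgeVec e (s e))) R (x • 1) =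
      ((x - (K : R)) • (1 : Matrix n n R) - sgnMat G R s).det :=
    fun s => mixedDet_signList G K hK s x
  rw [sum_congr rfl fun s _ => h2 s, sum_det_sgnMat] at h
  have hu : IsUnit (Fintype.card (Sym2 n → Bool) : R) := by
    rw [← map_natCast (algebraMap ℂ R)]
    exact (isUnit_iff_ne_zero.2 (Nat.cast_ne_zero.2 Fintype.card_ne_zero)).map _
  exact hu.mul_left_cancel h

/-- **Heilmann–Lieb**, real-rootedness. -/
theorem mu_ne_zero_of_im {z : ℂ} (hz : z.im ≠ 0) : mu G univ z ≠ 0 := by
  obtain ⟨K, hK⟩ : ∃ K, ∀ v, G.degree v ≤ K :=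
    ⟨Fintype.card n, fun v => (G.degree_lt_card_verts v).le⟩
  obtain ⟨q, hq, hr, -, -, -⟩ := exists_real_scalarPoly (l := padList G K ++ meanList G)
    fun A hA => (List.mem_append.1 hA).elim (padList_posSemidef G K A) (meanList_posSemidef G A)
  have h := hr (z + K) (by simpa using hz)
  rw [← eval_map_algebraMap, hq, mixedDet_meanList G K hK, ← coe_evalRingHom, map_mu] at h
  simpa using h

/-- The eigenvalues of a signed adjacency matrix. -/
def SignEig {n : Type} [Fintype n] (G : SimpleGraph n) [DecidableRel G.Adj] (s : Sym2 n → Bool)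
    (w : n → ℝ) (μ : ℝ) : Prop :=
  ∀ v, ∑ u ∈ G.neighborFinset v, bsign ℝ (s s(v, u)) * w u = μ * w v

theorem sgnMat_mulVec {R : Type} [CommRing R] (s : Sym2 n → Bool) (w : n → R) (v : n) :
    (sgnMat G R s *ᵥ w) v = ∑ u ∈ G.neighborFinset v, bsign R (s s(v, u)) * w u := by
  simp [Matrix.mulVec, dotProduct, sgnMat, SimpleGraph.neighborFinset_eq_filter, sum_filter,
    ite_mul]

/-- **Marcus–Spielman–Srivastava**: a signing with no eigenvalue above the roots. -/
theorem exists_good_signing {B : ℝ} (hB : ∀ x : ℝ, B < x → mu G univ x ≠ 0) :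
    ∃ s : Sym2 n → Bool, ∀ (w : n → ℝ) (μ : ℝ), w ≠ 0 → SignEig G s w μ → μ ≤ B := by
  obtain ⟨K, hK⟩ : ∃ K, ∀ v, G.degree v ≤ K :=
    ⟨Fintype.card n, fun v => (G.degree_lt_card_verts v).le⟩
  have hmean : NodeLE (padList G K ++ meanList G) (K + B) := fun x hx => by
    rw [mixedDet_meanList G K hK]
    have := hB (x - K) (by linarith)
    rwa [show ((x : ℂ) - (K : ℂ)) = Complex.ofRealHom (x - K) by simp, ← map_mu,
      Complex.ofRealHom_eq_coe, Complex.ofReal_re]
  obtain ⟨s, hs⟩ := exists_choice (p := fun (_ : Sym2 n) (_ : Bool) => (1 / 2 : ℝ))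
    (fun _ _ => by norm_num) (fun _ => by simp) edgeVec G.edgeFinset.toList (nodup_toList _)
    (padList G K) (padList_posSemidef G K) hmean
  refine ⟨s, fun w μ hw hμ => le_of_not_gt fun hlt => hs (μ + K) (by linarith) ?_⟩
  change (mixedDet (padList G K ++ signList G s) ℂ (((μ + K : ℝ) : ℂ) • 1)).re = 0
  rw [mixedDet_signList G K hK]
  have hmat : ((((μ + K : ℝ) : ℂ)) - (K : ℂ)) • (1 : Matrix n n ℂ) - sgnMat G ℂ s =
      (μ • (1 : Matrix n n ℝ) - sgnMat G ℝ s).map Complex.ofRealHom := by
    refine Matrix.ext fun i j => ?_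
    by_cases ha : G.Adj i j
    · cases hsb : s s(i, j) <;> simp [sgnMat, ha, hsb, bsign, Matrix.one_apply] <;>
        split <;> simp
    · by_cases h : i = j <;> simp [sgnMat, ha, h]
  rw [hmat, ← RingHom.mapMatrix_apply, ← RingHom.map_det, Complex.ofRealHom_eq_coe,
    Complex.ofReal_re]
  refine exists_mulVec_eq_zero_iff.1 ⟨w, hw, funext fun v => ?_⟩
  simp [sub_mulVec, smul_mulVec, sgnMat_mulVec, hμ v]

/-- For a bipartite graph the bound is two-sided. -/
theorem exists_good_signing_abs (col : n → Bool) (hcol : ∀ v w, G.Adj v w → col v ≠ col w)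
    {B : ℝ} (hB : ∀ x : ℝ, B < x → mu G univ x ≠ 0) :
    ∃ s : Sym2 n → Bool, ∀ (w : n → ℝ) (μ : ℝ), w ≠ 0 → SignEig G s w μ → |μ| ≤ B := by
  obtain ⟨s, hs⟩ := exists_good_signing G hB
  refine ⟨s, fun w μ hw hμ => abs_le'.2 ⟨hs w μ hw hμ, hs (fun v => bsign ℝ (col v) * w v) (-μ)
    (fun h => hw (funext fun v => ?_)) fun v => ?_⟩⟩
  · have := congrFun h v
    cases hv : col v <;> simpa [hv, bsign] using this
  · have h2 : ∀ u ∈ G.neighborFinset v, bsign ℝ (s s(v, u)) * (bsign ℝ (col u) * w u) =
        -bsign ℝ (col v) * (bsign ℝ (s s(v, u)) * w u) := by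
      intro u hu
      have := hcol v u ((G.mem_neighborFinset v u).1 hu)
      cases hv : col v <;> cases hc : col u <;> simp_all [bsign]
    rw [sum_congr rfl h2, ← mul_sum, hμ v]
    ring

end FA.RamanujanGraphs
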